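import Fermat.Prelude.Def_CuspForm_HeckeAlgebra
import Fermat.Prelude.Def_ModularCurve_HeckeModule
import Fermat.Prelude.Def_ModularCurve_ReductionModL
import Fermat.Agent.FF.SeriesInst

/-!
# Mazur's theorem for the Frey curve: definitions

Good Hecke polynomials and their actions on `J₀(N)` and on forms, places of `X₀(N)`, the functions
`j` and `j_N`, the residue disc of the cusp `∞`.
-/

noncomputable section

namespace Fermat.Agent.Mazur

open ModularCurve AlgebraicCurve

local notation "Qbar" => AlgebraicClosure ℚ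

variable (N : ℕ) [NeZero N]

/-- Polynomials in the Hecke operators `T_ℓ`, `ℓ ∤ N`. -/
abbrev GoodHecke : Type := MvPolynomial {ℓ : Nat.Primes // ¬ (ℓ : ℕ) ∣ N} ℤ

/-- The inclusion into all Hecke polynomials. -/
def GoodHecke.incl : GoodHecke N →ₐ[ℤ] HeckeAlg :=
  MvPolynomial.rename Subtype.val

/-- The action of a good Hecke polynomial on `J₀(N)(ℚ̄)`. -/
def jAct (h : HeckeOperatorsCommuteBar N) : GoodHecke N →+* Module.End ℤ (JZero N) :=
  (heckeEvalBar h).comp (GoodHecke.incl N).toRingHom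

variable {N} in
/-- The variable at `ℓ` acts as `T_ℓ`. -/
theorem jAct_X (h : HeckeOperatorsCommuteBar N) (ℓ : {ℓ : Nat.Primes // ¬ (ℓ : ℕ) ∣ N}) :
    jAct N h (MvPolynomial.X ℓ) = heckeOperatorBar N ℓ.1 := by
  show heckeEvalBar h (GoodHecke.incl N (MvPolynomial.X ℓ)) = _
  rw [GoodHecke.incl, MvPolynomial.rename_X]
  exact heckeEvalBar_heckeGen h ℓ.1

/-- The anemic Hecke algebra on weight two cusp forms. -/
abbrev TGood : Subalgebra ℤ (Module.End ℂ (CuspForm (CongruenceSubgroup.Gamma0 N) 2)) :=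
  CuspForm.heckeAlgebra N 2 {q : ℕ | q ∣ N}

open scoped IsMulCommutative in
/-- Evaluation of a good Hecke polynomial on forms. -/
def formsEval : GoodHecke N →ₐ[ℤ] TGood N :=
  MvPolynomial.aeval fun ℓ => CuspForm.heckeAlgebra.T ℓ.1.2 ℓ.2 ℓ.2

/-- Places of `X₀(N)` over `ℚ̄`. -/
abbrev XPlace : Type _ := Place Qbar (modularFunctionFieldBar N)

/-- The value of `f` at the place `x` is the constant `a`. -/
def HasValue (x : XPlace N) (f : modularFunctionFieldBar N) (a : Qbar) : Prop :=
  f = algebraMap Qbar _ a ∨ 0 < x.ord (f - algebraMap Qbar _ a)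

/-- The function `j` on `X₀(N)`. -/
def jBar : modularFunctionFieldBar N :=
  ⟨coeffEmb Qbar jq, coeffEmb_mem_laurentBaseChange Qbar
    (modularFunctionField_le_full N (jq_mem N))⟩

/-- The function `j_N : τ ↦ j(Nτ)` on `X₀(N)`. -/
def jNBar : modularFunctionFieldBar N :=
  ⟨coeffEmb Qbar (qExpand ℚ N jq), coeffEmb_mem_laurentBaseChange Qbar
    (modularFunctionField_le_full N (jqN_mem N))⟩

/-- `O` is the cusp `∞`: orders are the orders of `q`-expansions. -/
def IsInfty (O : XPlace N) : Prop :=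
  ∀ f : modularFunctionFieldBar N, f ≠ 0 → O.ord f = (f : LaurentSeries Qbar).order

/-- `x` lies in the residue disc of the cusp `∞` at `A`: `|j(x)| > 1` and `|j_N(x)| = |j(x)| ^ N`.
-/
def NearInfty (A : ValuationSubring Qbar) (x : XPlace N) : Prop :=
  ∃ a b : Qbar, HasValue N x (jBar N) a ∧ HasValue N x (jNBar N) b ∧
    a ∉ A ∧ b * (a ^ N)⁻¹ ∈ A ∧ a ^ N * b⁻¹ ∈ A

/-- `x` is a rational point. -/
def IsRationalPlace (x : XPlace N) : Prop :=
  ∀ σ : Qbar ≃ₐ[ℚ] Qbar, arithmeticGalois (modularFunctionFieldFull N) σ • x = x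

/-- `y` is the class of `x - O`. -/
def IsDiffClass (x O : XPlace N) (y : JZero N) : Prop :=
  ∃ D : Divisor.degZero (K := Qbar) (F := modularFunctionFieldBar N),
    (D : Divisor Qbar (modularFunctionFieldBar N)) = Finsupp.single x 1 - Finsupp.single O 1 ∧
      Pic0.mk D = y

end Fermat.Agent.Mazur
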