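import Fermat.Agent.FF.Modular
import Fermat.Agent.FF.Places
import Fermat.Agent.Mazur.Defs

/-!
# The cusp `∞` as a rational place of `X₀(N)`
-/

noncomputable section

namespace Fermat.Agent.Mazur

open ModularCurve AlgebraicCurve
open scoped Pointwise

local notation "Qbar" => AlgebraicClosure ℚ

variable (N : ℕ) [NeZero N]

theorem coeffEmb_jq_coeff (k : ℤ) :
    (coeffEmb Qbar jq).coeff k = algebraMap ℚ Qbar (jq.coeff k) :=
  coeffEmb_coeff Qbar jq k

theorem order_coe_jBar :
    ((jBar N : modularFunctionFieldBar N) : LaurentSeries Qbar).order = -1 := by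
  have hne : (coeffEmb Qbar jq).coeff (-1) ≠ 0 := by
    rw [coeffEmb_jq_coeff, coeff_jq_neg_one, map_one]; exact one_ne_zero
  have hne0 : coeffEmb Qbar jq ≠ 0 := fun h => hne (by rw [h]; rfl)
  refine le_antisymm (HahnSeries.order_le_of_coeff_ne_zero hne) (not_lt.1 fun hlt => ?_)
  refine HahnSeries.coeff_order_eq_zero.not.2 hne0 ?_
  show (coeffEmb Qbar jq).coeff _ = 0
  rw [coeffEmb_jq_coeff, coeff_jq_of_lt (show (coeffEmb Qbar jq).order < -1 from hlt), map_zero]

theorem jBar_ne_zero : jBar N ≠ 0 := fun h => by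
  have := order_coe_jBar N
  rw [h, ZeroMemClass.coe_zero, HahnSeries.order_zero] at this
  omega

/-- The functions whose `q`-expansion has no polar part. -/
def inftyRing : ValuationSubring (modularFunctionFieldBar N) where
  carrier := {f | (0 : WithTop ℤ) ≤ (f : LaurentSeries Qbar).orderTop}
  mul_mem' {f g} (hf : (0 : WithTop ℤ) ≤ (f : LaurentSeries Qbar).orderTop)
      (hg : (0 : WithTop ℤ) ≤ (g : LaurentSeries Qbar).orderTop) := by
    show (0 : WithTop ℤ) ≤ ((f : LaurentSeries Qbar) * (g : LaurentSeries Qbar)).orderTop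
    exact le_trans (add_nonneg hf hg) HahnSeries.orderTop_add_le_mul
  one_mem' := by
    show (0 : WithTop ℤ) ≤ ((1 : modularFunctionFieldBar N) : LaurentSeries Qbar).orderTop
    simp
  add_mem' {f g} (hf : (0 : WithTop ℤ) ≤ (f : LaurentSeries Qbar).orderTop)
      (hg : (0 : WithTop ℤ) ≤ (g : LaurentSeries Qbar).orderTop) := by
    show (0 : WithTop ℤ) ≤ ((f : LaurentSeries Qbar) + (g : LaurentSeries Qbar)).orderTop
    exact le_trans (le_min hf hg) HahnSeries.min_orderTop_le_orderTop_add
  zero_mem' := by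
    show (0 : WithTop ℤ) ≤ ((0 : modularFunctionFieldBar N) : LaurentSeries Qbar).orderTop
    simp
  neg_mem' {f} (hf : (0 : WithTop ℤ) ≤ (f : LaurentSeries Qbar).orderTop) := by
    show (0 : WithTop ℤ) ≤ (-(f : LaurentSeries Qbar)).orderTop
    rwa [HahnSeries.orderTop_neg]
  mem_or_inv_mem' f := by
    by_cases h : f = 0
    · left; subst h
      show (0 : WithTop ℤ) ≤ ((0 : modularFunctionFieldBar N) : LaurentSeries Qbar).orderTop
      simp
    have h' : (f : LaurentSeries Qbar) ≠ 0 := fun e => h (Subtype.ext e)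
    have hinv : (f : LaurentSeries Qbar).order + (f : LaurentSeries Qbar)⁻¹.order = 0 := by
      rw [← HahnSeries.order_mul h' (inv_ne_zero h'), mul_inv_cancel₀ h', HahnSeries.order_one]
    rcases le_total 0 (f : LaurentSeries Qbar).order with hn | hn
    · left
      show (0 : WithTop ℤ) ≤ (f : LaurentSeries Qbar).orderTop
      rw [← HahnSeries.order_eq_orderTop_of_ne_zero h']
      exact_mod_cast hn
    · right
      show (0 : WithTop ℤ) ≤ ((f⁻¹ : modularFunctionFieldBar N) : LaurentSeries Qbar).orderTop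
      rw [IntermediateField.coe_inv, ← HahnSeries.order_eq_orderTop_of_ne_zero (inv_ne_zero h')]
      exact_mod_cast (by omega : 0 ≤ (f : LaurentSeries Qbar)⁻¹.order)

omit [NeZero N] in
theorem mem_inftyRing {f : modularFunctionFieldBar N} :
    f ∈ inftyRing N ↔ f = 0 ∨ 0 ≤ (f : LaurentSeries Qbar).order := by
  show (0 : WithTop ℤ) ≤ (f : LaurentSeries Qbar).orderTop ↔ _
  by_cases h : f = 0
  · simp [h]
  · rw [← HahnSeries.order_eq_orderTop_of_ne_zero fun e => h (Subtype.ext e)]
    simp [h]

omit [NeZero N] in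
theorem algebraMap_mem_inftyRing (a : Qbar) : algebraMap Qbar _ a ∈ inftyRing N := by
  rw [mem_inftyRing]
  right
  show (0 : ℤ) ≤ (algebraMap Qbar (LaurentSeries Qbar) a).order
  rw [ModularCurve.algebraMap_laurentSeries_eq_single]
  by_cases ha : a = 0
  · simp [ha]
  · rw [HahnSeries.order_single ha]

theorem inftyRing_ne_top : inftyRing N ≠ ⊤ := fun h => by
  have := (mem_inftyRing N).1 (h ▸ ValuationSubring.mem_top (jBar N))
  rcases this with h0 | h0
  · exact jBar_ne_zero N h0
  · rw [order_coe_jBar] at h0; omega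

/-- The cusp `∞`. -/
def inftyPlace : XPlace N :=
  Fermat.Agent.FF.placeOfValuationSubring (inftyRing N) (algebraMap_mem_inftyRing N)
    (inftyRing_ne_top N)

theorem isInfty_inftyPlace : IsInfty N (inftyPlace N) := by
  set O := inftyPlace N
  have hmem : ∀ f : modularFunctionFieldBar N, f ≠ 0 →
      (0 ≤ O.ord f ↔ 0 ≤ (f : LaurentSeries Qbar).order) := fun f hf => by
    rw [← FF.mem_iff_ord_nonneg, show f ∈ O.toValuationSubring ↔ f ∈ inftyRing N from Iff.rfl,
      mem_inftyRing]
    simp [hf]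
  have coe_ne : ∀ f : modularFunctionFieldBar N, f ≠ 0 → (f : LaurentSeries Qbar) ≠ 0 :=
    fun f hf e => hf (Subtype.ext e)
  have hsign : ∀ f : modularFunctionFieldBar N, f ≠ 0 →
      (O.ord f ≤ 0 ↔ (f : LaurentSeries Qbar).order ≤ 0) := fun f hf => by
    have h1 := hmem f⁻¹ (inv_ne_zero hf)
    rw [O.ord_inv, IntermediateField.coe_inv] at h1
    have h2 : (f : LaurentSeries Qbar).order + (f : LaurentSeries Qbar)⁻¹.order = 0 := by
      rw [← HahnSeries.order_mul (coe_ne f hf) (inv_ne_zero (coe_ne f hf)),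
        mul_inv_cancel₀ (coe_ne f hf), HahnSeries.order_one]
    omega
  have key : ∀ f : modularFunctionFieldBar N, f ≠ 0 →
      O.ord f = -(f : LaurentSeries Qbar).order * O.ord (jBar N) := by
    intro f hf
    set n := (f : LaurentSeries Qbar).order with hn
    have hpow : ∀ k : ℕ, ((jBar N ^ k : modularFunctionFieldBar N) : LaurentSeries Qbar).order
        = -(k : ℤ) := fun k => by
      rw [SubmonoidClass.coe_pow, HahnSeries.order_pow, order_coe_jBar]; simp
    rcases le_total 0 n with h0 | h0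
    · have hg : f * jBar N ^ n.toNat ≠ 0 := mul_ne_zero hf (pow_ne_zero _ (jBar_ne_zero N))
      have hord : ((f * jBar N ^ n.toNat : modularFunctionFieldBar N) : LaurentSeries Qbar).order
          = 0 := by
        rw [MulMemClass.coe_mul, HahnSeries.order_mul (coe_ne f hf)
          (coe_ne _ (pow_ne_zero _ (jBar_ne_zero N))), hpow]
        omega
      have := (hmem _ hg).2 hord.ge
      have := (hsign _ hg).2 hord.le
      have e : O.ord (f * jBar N ^ n.toNat) = O.ord f + n.toNat * O.ord (jBar N) := by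
        rw [O.ord_mul hf (pow_ne_zero _ (jBar_ne_zero N)), FF.ord_pow]
      rw [Int.toNat_of_nonneg h0] at e
      linarith
    · have hg : f⁻¹ * jBar N ^ (-n).toNat ≠ 0 :=
        mul_ne_zero (inv_ne_zero hf) (pow_ne_zero _ (jBar_ne_zero N))
      have hord : ((f⁻¹ * jBar N ^ (-n).toNat : modularFunctionFieldBar N) :
          LaurentSeries Qbar).order = 0 := by
        have h2 : n + (f : LaurentSeries Qbar)⁻¹.order = 0 := by
          rw [hn, ← HahnSeries.order_mul (coe_ne f hf) (inv_ne_zero (coe_ne f hf)),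
            mul_inv_cancel₀ (coe_ne f hf), HahnSeries.order_one]
        rw [MulMemClass.coe_mul, IntermediateField.coe_inv,
          HahnSeries.order_mul (inv_ne_zero (coe_ne f hf))
            (coe_ne _ (pow_ne_zero _ (jBar_ne_zero N))), hpow]
        omega
      have := (hmem _ hg).2 hord.ge
      have := (hsign _ hg).2 hord.le
      have e : O.ord (f⁻¹ * jBar N ^ (-n).toNat) = -O.ord f + (-n).toNat * O.ord (jBar N) := by
        rw [O.ord_mul (inv_ne_zero hf) (pow_ne_zero _ (jBar_ne_zero N)), FF.ord_pow, O.ord_inv]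
      rw [Int.toNat_of_nonneg (by omega : 0 ≤ -n)] at e
      linarith
  obtain ⟨t, ht0, ht⟩ := FF.exists_ord_eq_one O
  have hj : O.ord (jBar N) = -1 := by
    have h1 : -(t : LaurentSeries Qbar).order * O.ord (jBar N) = 1 := (key t ht0).symm.trans ht
    have h2 : O.ord (jBar N) ≤ 0 := (hsign _ (jBar_ne_zero N)).2 (by rw [order_coe_jBar]; norm_num)
    rcases Int.eq_one_or_neg_one_of_mul_eq_one (by rw [mul_comm]; exact h1) with h | h
    · omega
    · exact h
  intro f hf
  rw [key f hf, hj]; ring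

theorem isRationalPlace_inftyPlace : IsRationalPlace N (inftyPlace N) := by
  intro σ
  refine Place.ext (SetLike.ext fun f => ?_)
  rw [SemilinearAut.smul_toValuationSubring,
    ValuationSubring.mem_pointwise_smul_iff_inv_smul_mem, ← map_inv]
  show (0 : WithTop ℤ) ≤ (coeffMap ((σ⁻¹ : Qbar ≃ₐ[ℚ] Qbar) : Qbar →+* Qbar)
    (f : LaurentSeries Qbar)).orderTop ↔ (0 : WithTop ℤ) ≤ (f : LaurentSeries Qbar).orderTop
  rw [HahnSeries.le_orderTop_iff_forall, HahnSeries.le_orderTop_iff_forall]
  refine forall_congr' fun k => forall_congr' fun _ => ?_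
  rw [coeffMap_coeff]
  exact map_eq_zero_iff _ (σ⁻¹ : Qbar ≃ₐ[ℚ] Qbar).injective

/-- The cusp `∞` is a rational place. -/
theorem exists_infty : ∃ O : XPlace N, IsInfty N O ∧ IsRationalPlace N O :=
  ⟨inftyPlace N, isInfty_inftyPlace N, isRationalPlace_inftyPlace N⟩

/-- All places over `ℚ̄` have the same degree, namely one. -/
theorem deg_eq_deg (x O : XPlace N) : x.deg = O.deg := by
  rw [FF.place_deg_eq_one, FF.place_deg_eq_one]

end Fermat.Agent.Mazur
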