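import Fermat.Agent.S13

/-!
# Irreducibility of the Frey representation

The mod `p` representation of a Frey package is irreducible as soon as its curve has no Galois
stable cofixed line: the reduction to the three ranges `p ∈ {5, 7, 13}`, `p = 11` and `p ≥ 17`.
-/

namespace Fermat.Agent.Mazur

open WeierstrassCurve WeierstrassCurve.Affine WeierstrassCurve.Affine.Point

/-- A prime at least `5` is `5, 7, 11, 13` or at least `17`. -/
theorem prime_ge_five_cases {p : ℕ} (hp : p.Prime) (h5 : 5 ≤ p) :
    (p = 5 ∨ p = 7 ∨ p = 13) ∨ p = 11 ∨ 17 ≤ p := by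
  rcases Nat.lt_or_ge p 17 with h | h
  · interval_cases p <;> first | (left; omega) | (right; left; omega) | (exfalso; norm_num at hp)
  · exact Or.inr (Or.inr h)

/-- The Frey representation is irreducible if the curve has no stable cofixed line in any of the
three ranges of `p`. -/
theorem frey_irreducible_of (P : FreyPackage)
    (hsmall : P.p = 5 ∨ P.p = 7 ∨ P.p = 13 →
      ¬ HasGaloisStableCofixedLine (K := AlgebraicClosure ℚ) ℚ P.freyCurve P.p)
    (h11 : P.p = 11 → ¬ HasGaloisStableCofixedLine (K := AlgebraicClosure ℚ) ℚ P.freyCurve P.p)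
    (hbig : 17 ≤ P.p → ¬ HasGaloisStableCofixedLine (K := AlgebraicClosure ℚ) ℚ P.freyCurve P.p) :
    GaloisRepIsIrreducible (K := AlgebraicClosure ℚ) ℚ P.freyCurve P.p := by
  by_contra hred
  have h := S13.result P hred
  rcases prime_ge_five_cases P.pp P.hp5 with hp | hp | hp
  exacts [hsmall hp h, h11 hp h, hbig hp h]

end Fermat.Agent.Mazur
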