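import Mathlib.NumberTheory.Cyclotomic.CyclotomicCharacter
import Fermat.Prelude.Def_EllipticCurve_ZeroComponentAt
import Fermat.Prelude.Def_ExtCitation_KummerBridge
import Fermat.Agent.Mazur.Defs

/-!
# Mazur's theorem for the Frey curve: the statements of the main steps

Each statement below is proved in the directory named after it and is a hypothesis of the proofs
which use it: `TameInertia` (`Tame`), `DescentTheorem` (`Descent`),
`RankZeroQuotient` (`EisensteinComponent`, `RankZero`), `HeckePreservesKernel` (`Kernel`),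
`ReductionInjective` (`RankZero`), `NearReduction` (`Disc`), `FormalImmersion` (`Immersion`),
`ModuliPoint` (`Moduli`). They are combined in `Core` and `Assemble`.
-/

noncomputable section

namespace Fermat.Agent.Mazur

open ModularCurve AlgebraicCurve

local notation "Qbar" => AlgebraicClosure ℚ
local notation "Γℚ" => AlgebraicClosure ℚ ≃ₐ[ℚ] AlgebraicClosure ℚ

/-- Tame inertia at `p`, seen by finite quotients with `P`-primary inertia image: it is generated by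
the image of one element `t`, and a Frobenius conjugates `t` to `t ^ p`. -/
def TameInertia (p P : ℕ) : Prop :=
  ∀ A : ValuationSubring Qbar, A.LiesOverPrime p →
    ∃ t φ : Γℚ, t ∈ A.inertiaSubgroupIn ℚ ∧ A.IsFrobeniusAt φ p ∧
      ∀ (H : Type) (_ : Group H) (_ : Finite H) (π : Γℚ →* H),
        (∃ E : IntermediateField ℚ Qbar, FiniteDimensional ℚ E ∧
          ∀ σ : Γℚ, (∀ a ∈ E, σ a = a) → π σ = 1) →
        IsPGroup P ((A.inertiaSubgroupIn ℚ).map π) →
          (∀ σ ∈ A.inertiaSubgroupIn ℚ, π σ ∈ Subgroup.zpowers (π t)) ∧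
            π (φ * t * φ⁻¹) = π t ^ p

section Descent

variable (p P : ℕ) [Fact P.Prime] (L : Type) [AddCommGroup L] [Module ℤ_[P] L]

/-- The `P`-adic cyclotomic character. -/
def chi (σ : Γℚ) : ℤ_[P]ˣ := cyclotomicCharacter Qbar P σ.toRingEquiv

/-- The hypotheses on a Galois lattice in the descent theorem. `d` is the rank of `C`. -/
structure DescentData (ρ : Γℚ →* Module.End ℤ_[P] L) (d : ℕ) (AP : ValuationSubring Qbar)
    (φP : Γℚ) (C : Submodule ℤ_[P] L) (Ap : ValuationSubring Qbar) : Prop where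
  finrank_L : Module.finrank ℤ_[P] L = 2 * d
  finrank_C : Module.finrank ℤ_[P] C = d
  saturated : ∀ x : L, (P : ℤ_[P]) • x ∈ C → x ∈ C
  continuous : ∀ k : ℕ, ∃ E : IntermediateField ℚ Qbar, FiniteDimensional ℚ E ∧
    ∀ σ : Γℚ, (∀ a ∈ E, σ a = a) → ∀ x : L, ∃ y : L, ρ σ x - x = (P : ℤ_[P]) ^ k • y
  unramified : ∀ ℓ : ℕ, ℓ.Prime → ℓ ≠ p → ℓ ≠ P → ∀ A : ValuationSubring Qbar,
    A.LiesOverPrime ℓ → ∀ σ ∈ A.inertiaSubgroupIn ℚ, ρ σ = 1
  residual : ∀ σ : Γℚ, ∃ K : ℕ, ∀ x : L, ∃ y : L,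
    (((ρ σ - 1) * (ρ σ - algebraMap ℤ_[P] (Module.End ℤ_[P] L) (chi P σ : ℤ_[P]))) ^ K) x =
      (P : ℤ_[P]) • y
  over_P : AP.LiesOverPrime P
  frob_P : AP.IsFrobeniusAt φP P
  inertia_C : ∀ σ ∈ AP.inertiaSubgroupIn ℚ, ∀ x ∈ C, ρ σ x = (chi P σ : ℤ_[P]) • x
  inertia_quot : ∀ σ ∈ AP.inertiaSubgroupIn ℚ, ∀ x : L, ρ σ x - x ∈ C
  /-- No nonzero invariant vector. -/
  fixed : ∀ x : L, (∀ σ : Γℚ, ρ σ x = x) → x = 0
  /-- Frobenius has no fixed vector on `C(-1)`. -/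
  frob_C : ∀ x ∈ C, ρ φP x = (chi P φP : ℤ_[P]) • x → x = 0
  /-- No nonzero Frobenius-equivariant map `L/C → C(-1)`. -/
  frob_hom : ∀ f : L →ₗ[ℤ_[P]] L, (∀ x ∈ C, f x = 0) → (∀ x, f x ∈ C) →
    (∀ x, (chi P φP : ℤ_[P]) • f (ρ φP x) = ρ φP (f x)) → f = 0
  over_p : Ap.LiesOverPrime p
  unipotent_p : ∃ K : ℕ, ∀ σ ∈ Ap.inertiaSubgroupIn ℚ, (ρ σ - 1) ^ K = 0
  /-- The numerical condition at `p`. -/
  rank_p : ∀ t φ : Γℚ, t ∈ Ap.inertiaSubgroupIn ℚ → Ap.IsFrobeniusAt φ p →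
    (∀ σ ∈ Ap.inertiaSubgroupIn ℚ, ∀ x : L, ρ t x = x → ρ σ x = x) →
    ∀ W : Submodule ℤ_[P] L,
      (∀ x, x ∈ W ↔ ρ φ x - (p : ℤ_[P]) • x ∈ LinearMap.range (ρ t - 1)) →
      d + Module.finrank ℤ_[P] W ≤
        Module.finrank ℤ_[P] (LinearMap.ker (ρ t - 1)) +
          Module.finrank ℤ_[P] (LinearMap.range (ρ t - 1))

/-- A cocycle satisfying the local conditions of the descent. -/
structure IsSelmerCocycle (ρ : Γℚ →* Module.End ℤ_[P] L) (AP : ValuationSubring Qbar)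
    (C : Submodule ℤ_[P] L) (c : Γℚ → L) : Prop where
  cocycle : ∀ σ τ : Γℚ, c (σ * τ) = c σ + ρ σ (c τ)
  continuous : ∀ k : ℕ, ∃ E : IntermediateField ℚ Qbar, FiniteDimensional ℚ E ∧
    ∀ σ : Γℚ, (∀ a ∈ E, σ a = a) → ∃ y : L, c σ = (P : ℤ_[P]) ^ k • y
  unramified : ∀ ℓ : ℕ, ℓ.Prime → ℓ ≠ p → ℓ ≠ P → ∀ A : ValuationSubring Qbar,
    A.LiesOverPrime ℓ → ∀ σ ∈ A.inertiaSubgroupIn ℚ, c σ = 0
  at_P : ∀ σ ∈ AP.inertiaSubgroupIn ℚ, c σ ∈ C

end Descent

/-- Selmer cocycles of a lattice with `DescentData` are torsion modulo coboundaries. -/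
def DescentTheorem : Prop :=
  ∀ (p P : ℕ) [Fact P.Prime], p.Prime → p ≠ P → TameInertia p P →
    ∀ (L : Type) [AddCommGroup L] [Module ℤ_[P] L] [Module.Free ℤ_[P] L] [Module.Finite ℤ_[P] L]
      (ρ : Γℚ →* Module.End ℤ_[P] L) (d : ℕ) (AP : ValuationSubring Qbar) (φP : Γℚ)
      (C : Submodule ℤ_[P] L) (Ap : ValuationSubring Qbar),
      DescentData p P L ρ d AP φP C Ap → ∀ c : Γℚ → L, IsSelmerCocycle p P L ρ AP C c →
        ∃ n : ℕ, 0 < n ∧ ∃ m : L, ∀ σ : Γℚ, n • c σ = ρ σ m - m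

section Curve

variable (N : ℕ) [NeZero N]

/-- Some good Hecke polynomial, nonzero on forms, sends every rational point of `J₀(N)` to a
torsion point. -/
def RankZeroQuotient : Prop :=
  ∀ h : HeckeOperatorsCommuteBar N, ∃ t : GoodHecke N, formsEval N t ≠ 0 ∧
    ∀ y : JZero N, (∀ σ : Γℚ, σ • y = y) → ∃ m : ℕ, 0 < m ∧ m • jAct N h t y = 0

/-- The kernels of good reduction are stable under the good Hecke operators. -/
def HeckePreservesKernel : Prop :=
  ∀ (h : HeckeOperatorsCommuteBar N) (ℓ : ℕ), ℓ.Prime → ¬ ℓ ∣ N →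
    ∀ A : ValuationSubring Qbar, A.LiesOverPrime ℓ →
      ∀ (t : GoodHecke N) (y : JZero N), reductionModL A N y = 0 →
        reductionModL A N (jAct N h t y) = 0

/-- A torsion class of order prime to `ℓ` which reduces to zero is zero. -/
def ReductionInjective : Prop :=
  ∀ ℓ : ℕ, ℓ.Prime → ¬ ℓ ∣ N → ∀ A : ValuationSubring Qbar, A.LiesOverPrime ℓ →
    ∀ (m : ℕ), ¬ ℓ ∣ m → ∀ z : JZero N, m • z = 0 → reductionModL A N z = 0 → z = 0

/-- Points of the disc of `∞` reduce to `∞`. -/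
def NearReduction : Prop :=
  ∀ ℓ : ℕ, ℓ.Prime → ¬ ℓ ∣ N → ∀ A : ValuationSubring Qbar, A.LiesOverPrime ℓ →
    ∀ (x O : XPlace N) (y : JZero N), IsInfty N O → NearInfty N A x → IsDiffClass N x O y →
      reductionModL A N y = 0

/-- Formal immersion at `∞` in residue characteristic `3`: for a rational point `x` in the disc of
`∞` at `3`, no good Hecke polynomial which is nonzero on forms kills the class of `x - ∞`. -/
def FormalImmersion : Prop :=
  ∀ (h : HeckeOperatorsCommuteBar N) (x O : XPlace N) (y : JZero N), IsInfty N O →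
    IsRationalPlace N x → (∀ A : ValuationSubring Qbar, A.LiesOverPrime 3 → NearInfty N A x) →
      IsDiffClass N x O y → ∀ t : GoodHecke N, formsEval N t ≠ 0 → jAct N h t y ≠ 0

/-- No rational point of `X₀(N)` lies in the disc of `∞` both at `2` and at `3`. -/
def NoRationalCuspDiscPoint : Prop :=
  ¬ ∃ x : XPlace N, IsRationalPlace N x ∧
    (∀ A : ValuationSubring Qbar, A.LiesOverPrime 2 → NearInfty N A x) ∧
    (∀ A : ValuationSubring Qbar, A.LiesOverPrime 3 → NearInfty N A x)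

end Curve

section Moduli

open WeierstrassCurve WeierstrassCurve.Affine

/-- The points over `ℚ̄`. -/
abbrev EPoint (W : WeierstrassCurve ℤ) : Type :=
  ((W.map (Int.castRingHom ℚ))⁄(AlgebraicClosure ℚ)).Point

variable (p : ℕ) [NeZero p] (W : WeierstrassCurve ℤ)

/-- A Galois stable line of `p`-torsion, given by a generator. -/
def IsStableLine (Q : EPoint W) : Prop :=
  addOrderOf Q = p ∧ ∀ σ : Γℚ, ∃ k : ℕ, σ • Q = k • Q

/-- The line of `Q` is toric at `ℓ` (it lies in the identity component). -/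
def IsToricAt (Q : EPoint W) (ℓ : ℕ) : Prop :=
  ∀ A : ValuationSubring Qbar, A.LiesOverPrime ℓ → W.InZeroComponentAt A Q

/-- The line of `Q` meets the identity component trivially at `ℓ`. -/
def IsEtaleAt (Q : EPoint W) (ℓ : ℕ) : Prop :=
  ∀ A : ValuationSubring Qbar, A.LiesOverPrime ℓ → ¬ W.InZeroComponentAt A Q

/-- For a curve with multiplicative reduction at `2` and `3`, a stable line toric at both (or etale
at both) gives a rational point of `X₀(p)` in the disc of `∞` at `2` and at `3`. -/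
def ModuliPoint : Prop :=
  p.Prime → 11 ≤ p → W.Δ ≠ 0 → (2 : ℤ) ∣ W.Δ → ¬ (2 : ℤ) ∣ W.c₄ → (3 : ℤ) ∣ W.Δ → ¬ (3 : ℤ) ∣ W.c₄ →
    ∀ Q : EPoint W, IsStableLine p W Q →
      (IsToricAt W Q 2 ∧ IsToricAt W Q 3) ∨ (IsEtaleAt W Q 2 ∧ IsEtaleAt W Q 3) →
        ∃ x : XPlace p, IsRationalPlace p x ∧
          (∀ A : ValuationSubring Qbar, A.LiesOverPrime 2 → NearInfty p A x) ∧
          (∀ A : ValuationSubring Qbar, A.LiesOverPrime 3 → NearInfty p A x)

end Moduli

end Fermat.Agent.Mazur
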