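import Mathlib.RingTheory.Valuation.LocalSubring
import Fermat.Prelude.Def_FLTPrelim_Ramification
import Fermat.Agent.Mazur.Interface

/-!
# No rational point in the disc of the cusp at 2 and at 3, from the inputs

`NoRationalCuspDiscPoint N`: a rational point near `∞` at `2` and at `3` gives a class which a
suitable Hecke polynomial sends to a torsion point reducing to zero at both primes, hence to zero,
against the formal immersion.
-/

noncomputable section

namespace Fermat.Agent.Mazur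

open ModularCurve AlgebraicCurve

local notation "Qbar" => AlgebraicClosure ℚ

variable (N : ℕ) [NeZero N]

omit [NeZero N] in
/-- The class of `x - O` is rational when `x` and `O` are. -/
lemma smul_eq_of_isDiffClass {x O : XPlace N} {y : JZero N} (hy : IsDiffClass N x O y)
    (hx : IsRationalPlace N x) (hO : IsRationalPlace N O) (σ : Qbar ≃ₐ[ℚ] Qbar) : σ • y = y := by
  obtain ⟨D, hD, rfl⟩ := hy
  rw [galois_smul_pic0_def, SemilinearAut.pic0_smul_mk]
  congr 1
  refine Subtype.ext ?_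
  rw [SemilinearAut.coe_degZeroSMulHom, hD, smul_sub, SemilinearAut.smul_single,
      SemilinearAut.smul_single,
    hx σ, hO σ]

/-- `NoRationalCuspDiscPoint` from the statements of `Interface`. -/
theorem noRationalCuspDiscPoint (h : HeckeOperatorsCommuteBar N) (h2 : ¬ 2 ∣ N) (h3 : ¬ 3 ∣ N)
    (hO : ∃ O : XPlace N, IsInfty N O ∧ IsRationalPlace N O)
    (hdeg : ∀ x O : XPlace N, x.deg = O.deg)
    (hA : ∀ ℓ : ℕ, ℓ.Prime → ∃ A : ValuationSubring Qbar, A.LiesOverPrime ℓ)
    (hrank : RankZeroQuotient N) (hker : HeckePreservesKernel N) (hinj : ReductionInjective N)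
    (hnear : NearReduction N) (himm : FormalImmersion N) : NoRationalCuspDiscPoint N := by
  rintro ⟨x, hx, hx2, hx3⟩
  obtain ⟨O, hO, hOrat⟩ := hO
  obtain ⟨t, ht, htors⟩ := hrank h
  have hdeg0 : Finsupp.single x (1 : ℤ) - Finsupp.single O 1 ∈
      Divisor.degZero (K := Qbar) (F := modularFunctionFieldBar N) := by
    rw [Divisor.mem_degZero, map_sub, Divisor.degree_single, Divisor.degree_single, hdeg x O,
      sub_self]
  have hy : IsDiffClass N x O (Pic0.mk ⟨_, hdeg0⟩) := ⟨⟨_, hdeg0⟩, rfl, rfl⟩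
  generalize Pic0.mk (⟨_, hdeg0⟩ : Divisor.degZero (K := Qbar) (F := modularFunctionFieldBar N)) = y
    at hy
  obtain ⟨m, hm, hmy⟩ := htors y fun σ => smul_eq_of_isDiffClass N hy hx hOrat σ
  refine himm h x O y hO hx hx3 hy t ht ?_
  -- torsion reducing to zero at `2` and at `3`
  have red0 : ∀ ℓ : ℕ, ℓ.Prime → ¬ ℓ ∣ N →
      (∀ A : ValuationSubring Qbar, A.LiesOverPrime ℓ → NearInfty N A x) →
        ∀ n : ℕ, ¬ ℓ ∣ n → ∀ k : ℕ, (n * k) • jAct N h t y = 0 → k • jAct N h t y = 0 := by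
    intro ℓ hℓ hℓN hnearx n hn k hk
    obtain ⟨A, hA⟩ := hA ℓ hℓ
    refine hinj ℓ hℓ hℓN A hA n hn _ (by rw [← mul_nsmul', hk]) ?_
    rw [map_nsmul, hker h ℓ hℓ hℓN A hA t y (hnear ℓ hℓ hℓN A hA x O y hO (hnearx A hA) hy),
      nsmul_zero]
  obtain ⟨a, n, hn, hmn⟩ := Nat.exists_eq_pow_mul_and_not_dvd hm.ne' 2 (by norm_num)
  have e2 : (2 ^ a) • jAct N h t y = 0 :=
    red0 2 Nat.prime_two h2 hx2 n hn (2 ^ a) (by rw [mul_comm, ← hmn, hmy])
  have e3 : 1 • jAct N h t y = 0 := by
    refine red0 3 Nat.prime_three h3 hx3 (2 ^ a) ?_ 1 (by rw [mul_one, e2])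
    exact fun hdvd => by
      have := (Nat.prime_dvd_prime_iff_eq Nat.prime_three Nat.prime_two).mp
        (Nat.prime_three.dvd_of_dvd_pow hdvd)
      omega
  rwa [one_nsmul] at e3

end Fermat.Agent.Mazur
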