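import Fermat.Agent.Mazur.Glue
import Fermat.Agent.Mazur.Interface

/-!
# No stable line in the disc of the cusp

`NoCuspDiscLine p` follows from the moduli point of a stable line and `NoRationalCuspDiscPoint p`.
-/

noncomputable section

namespace Fermat.Agent.Mazur

open WeierstrassCurve WeierstrassCurve.Affine WeierstrassCurve.Affine.Point
open Fermat.Agent.Frey
open scoped WeierstrassCurve.Affine

/-- The moduli point of a stable line reduces `NoCuspDiscLine` to `NoRationalCuspDiscPoint`. -/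
theorem noCuspDiscLine_of {p : ℕ} [NeZero p] (hp : p.Prime) (h11 : 11 ≤ p)
    (hmod : ∀ W : WeierstrassCurve ℤ, ModuliPoint p W) (hcore : NoRationalCuspDiscPoint p) :
    NoCuspDiscLine p := by
  intro W hΔ h2Δ h2c h3Δ h3c N hst hbot htop hcase
  have : Fact p.Prime := ⟨hp⟩
  obtain ⟨q, hq, hq0⟩ := Submodule.exists_mem_ne_zero_of_ne_bot hbot
  refine hcore (hmod W hp h11 hΔ h2Δ h2c h3Δ h3c q.1 ⟨?_, fun σ => ?_⟩ ?_)
  · exact addOrderOf_eq_prime (tors_nsmul q) fun e => hq0 (Subtype.ext e)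
  · obtain ⟨c, hc⟩ := exists_smul_eq_of_mem hΔ hbot htop hq hq0 (hst σ q hq)
    exact ⟨c.val, by
      conv_lhs => rw [show σ • (q : EPoint W) = (σ • q : Tors W p).1 from rfl, ← hc,
        ← ZMod.natCast_zmod_val c, Nat.cast_smul_eq_nsmul]
      rfl⟩
  · rcases hcase with h | h
    · exact Or.inl ⟨fun A hA => h A (Or.inl hA) q hq, fun A hA => h A (Or.inr hA) q hq⟩
    · exact Or.inr ⟨fun A hA => h A (Or.inl hA) q hq hq0, fun A hA => h A (Or.inr hA) q hq hq0⟩

end Fermat.Agent.Mazur
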