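import Fermat.Agent.EC.GoodReduction
import Fermat.Agent.Frey.Local
import Fermat.Agent.Tate.Line

/-!
# Torsion at a prime different from its order

`p`-torsion at a prime `ℓ ≠ p`: congruent abscissae, the zero component at a multiplicative prime,
Frobenius-fixed points, and the values `x(P) - x(2P)`.
-/

noncomputable section

namespace Fermat.Agent.Mazur

open WeierstrassCurve WeierstrassCurve.Affine WeierstrassCurve.Affine.Point
open Fermat.Agent.Frey
open scoped WeierstrassCurve.Affine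

local notation "Qbar" => AlgebraicClosure ℚ
local notation "GQ" => AlgebraicClosure ℚ ≃ₐ[ℚ] AlgebraicClosure ℚ

variable {W : WeierstrassCurve ℤ} {A : ValuationSubring (AlgebraicClosure ℚ)} {ℓ p : ℕ}

theorem barCurve_intCoeff : IntCoeff A (barCurve W) := intCoeff_map W A (barCurve_eq W)

/-- Lying in the zero component is having nonsingular reduction. -/
theorem inZero_iff_not_sing {P : (barCurve W).Point} :
    W.InZeroComponentAt A P ↔ ¬ Sing (barCurve W) A P := by
  rw [Tate.inZeroComponentAt_iff_inE0]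
  cases P with
  | zero => exact iff_of_true Tate.inE0_zero not_sing_zero
  | some x y h =>
    rw [Tate.inE0_some, sing_some]
    constructor
    · rintro h' ⟨hx, hX, hY⟩
      rcases h' with h1 | h1 | h1
      · exact absurd (mem_iff_val.1 hx) (not_le.2 h1)
      · exact (m_iff_val.1 hX).ne h1
      · exact (m_iff_val.1 hY).ne h1
    · intro h'
      by_contra hc
      push Not at hc
      obtain ⟨hx, hX, hY⟩ := hc
      have hxA : x ∈ A := mem_iff_val.2 hx
      have hyA := y_mem barCurve_intCoeff h.1 hxA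
      have hW := barCurve_intCoeff (W := W) (A := A)
      refine h' ⟨hxA, m_iff_val.2 (lt_of_le_of_ne ?_ hX), m_iff_val.2 (lt_of_le_of_ne ?_ hY)⟩
      · exact mem_iff_val.1 (sub_mem (mul_mem hW.h1 hyA) (add_mem (add_mem
          (mul_mem (Frey.ofNat_mem A 3) (pow_mem hxA 2))
          (mul_mem (mul_mem (Frey.ofNat_mem A 2) hW.h2) hxA)) hW.h4))
      · exact mem_iff_val.1 (add_mem (add_mem (mul_mem (Frey.ofNat_mem A 2) hyA)
          (mul_mem hW.h1 hxA)) hW.h3)

theorem inZero_nsmul {P : (barCurve W).Point} (h : W.InZeroComponentAt A P) (k : ℕ) :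
    W.InZeroComponentAt A (k • P) :=
  (EC.zeroComponentAt W A).nsmul_mem h k

theorem inZero_neg {P : (barCurve W).Point} (h : W.InZeroComponentAt A P) :
    W.InZeroComponentAt A (-P) :=
  (EC.zeroComponentAt W A).neg_mem h

/-- A nonzero `p`-torsion point is integral. -/
theorem x_mem_of_torsion (hℓ : ℓ.Prime) (hA : A.LiesOverPrime ℓ) (hp : p.Prime) (hp2 : p ≠ 2)
    (hℓp : ℓ ≠ p) {x y : Qbar} {h : (barCurve W).Nonsingular x y}
    (hP : p • (.some x y h : (barCurve W).Point) = 0) : x ∈ A :=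
  not_not.1 fun hx => Point.some_ne_zero h (eq_zero_of_far_ne hℓ hA hp hp2 hℓp hP hx)

/-- Congruent abscissae and nonsingular reduction: the points are equal or opposite. -/
theorem eq_or_neg_of_x_congr (hℓ : ℓ.Prime) (hA : A.LiesOverPrime ℓ) (hp : p.Prime) (hp2 : p ≠ 2)
    (hℓp : ℓ ≠ p) {x y x' y' : Qbar} {h : (barCurve W).Nonsingular x y}
    {h' : (barCurve W).Nonsingular x' y'} (hR : p • (.some x y h : (barCurve W).Point) = 0)
    (hP : p • (.some x' y' h' : (barCurve W).Point) = 0)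
    (hns : W.InZeroComponentAt A (.some x y h : (barCurve W).Point))
    (hd : x' - x ∈ A.nonunits) :
    (.some x' y' h' : (barCurve W).Point) = .some x y h ∨
      (.some x' y' h' : (barCurve W).Point) = -.some x y h := by
  have hW := barCurve_intCoeff (W := W) (A := A)
  have hx := x_mem_of_torsion hℓ hA hp hp2 hℓp hR
  have hx' := x_mem_of_torsion hℓ hA hp hp2 hℓp hP
  have hy := y_mem hW h.1 hx
  have hy' := y_mem hW h'.1 hx'
  have key : (y' - y) * (y' - (barCurve W).negY x y) ∈ A.nonunits := by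
    have e1 := ((barCurve W).equation_iff x y).1 h.1
    have e2 := ((barCurve W).equation_iff x' y').1 h'.1
    have e : (y' - y) * (y' - (barCurve W).negY x y) = (x' - x) *
        (x' ^ 2 + x' * x + x ^ 2 + (barCurve W).a₂ * (x' + x) + (barCurve W).a₄
          - (barCurve W).a₁ * y') := by
      rw [Affine.negY]; linear_combination e2 - e1
    rw [e]
    exact m_mul_right hd (sub_mem (add_mem (add_mem (add_mem (add_mem (pow_mem hx' 2)
      (mul_mem hx' hx)) (pow_mem hx 2)) (mul_mem hW.h2 (add_mem hx' hx))) hW.h4)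
      (mul_mem hW.h1 hy'))
  by_cases hyy : y' - y ∈ A.nonunits
  · left
    refine sub_eq_zero.1 (eq_zero_of_far_ne hℓ hA hp hp2 hℓp (by rw [nsmul_sub, hP, hR, sub_zero])
      (far_sub_of_congr hW hx hd hyy fun e => ?_))
    exact inZero_iff_not_sing.1 hns ⟨hx, e⟩
  · right
    have hyn : y' - (barCurve W).negY x y ∈ A.nonunits := by
      by_contra hn
      have hyA : (barCurve W).negY x y ∈ A :=
        sub_mem (sub_mem (neg_mem hy) (mul_mem hW.h1 hx)) hW.h3
      exact (IsU.mul (isU_of_mem (sub_mem hy' hy) hyy) (isU_of_mem (sub_mem hy' hyA) hn)).not_m key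
    have hns' := inZero_iff_not_sing.1 (inZero_neg hns)
    rw [Point.neg_some] at hns' ⊢
    refine sub_eq_zero.1 (eq_zero_of_far_ne hℓ hA hp hp2 hℓp ?_
      (far_sub_of_congr hW hx hd hyn fun e => hns' ⟨hx, e⟩))
    rw [← Point.neg_some h, sub_neg_eq_add, nsmul_add, hP, hR, add_zero]

/-- A Frobenius-fixed point of order `p` with nonsingular reduction forces `p ≤ 2ℓ + 1`. -/
theorem le_of_frobenius_fixed (hℓ : ℓ.Prime) (hA : A.LiesOverPrime ℓ) [Fact p.Prime] (hp2 : p ≠ 2)
    (hℓp : ℓ ≠ p) {σ : GQ} (hσ : A.IsFrobeniusAt σ ℓ) {Q : Tors W p} (hQ0 : Q ≠ 0)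
    (hfix : σ • Q = Q) (hE0 : W.InZeroComponentAt A Q.1) : p ≤ 2 * ℓ + 1 := by
  classical
  by_contra hlt
  have hp : p.Prime := Fact.out
  obtain ⟨-, hres⟩ := Gal.isFrobeniusAt_iff.1 hσ
  have hord : addOrderOf Q.1 = p :=
    addOrderOf_eq_prime (tors_nsmul Q) fun e => hQ0 (Subtype.ext e)
  have htor : ∀ k : ℕ, p • (k • Q.1) = 0 := fun k => by
    rw [← mul_nsmul', Nat.mul_comm, mul_nsmul', tors_nsmul, nsmul_zero]
  have hcoord : ∀ k ∈ Finset.Icc 1 (ℓ + 1), ∃ x y h,
      k • Q.1 = (.some x y h : (barCurve W).Point) := by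
    intro k hk
    rw [Finset.mem_Icc] at hk
    rcases hP : k • Q.1 with _ | ⟨x, y, h⟩
    · exfalso
      have hdvd : p ∣ k := hord ▸ addOrderOf_dvd_of_nsmul_eq_zero hP
      have := Nat.le_of_dvd (by omega) hdvd
      omega
    · exact ⟨x, y, h, rfl⟩
  choose! x y hxy he using hcoord
  have hxA : ∀ k ∈ Finset.Icc 1 (ℓ + 1), x k ∈ A := fun k hk =>
    x_mem_of_torsion hℓ hA hp hp2 hℓp (by rw [← he k hk]; exact htor k)
  let r : ℕ → IsLocalRing.ResidueField A := fun k =>
    if h : x k ∈ A then IsLocalRing.residue A ⟨x k, h⟩ else 0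
  have hroot : ∀ k ∈ Finset.Icc 1 (ℓ + 1),
      r k ∈ (Polynomial.X ^ ℓ - Polynomial.X :
        Polynomial (IsLocalRing.ResidueField A)).roots.toFinset := by
    intro k hk
    rw [Multiset.mem_toFinset, Polynomial.mem_roots (FiniteField.X_pow_card_sub_X_ne_zero _
      hℓ.one_lt), Polynomial.IsRoot.def]
    simp only [r, dif_pos (hxA k hk), Polynomial.eval_sub, Polynomial.eval_pow, Polynomial.eval_X]
    have hfx : σ (x k) = x k := by
      obtain ⟨h', e'⟩ := map_spec σ _ _ (hxy k hk)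
      have : Point.map σ.toAlgHom (k • Q.1) = k • Q.1 := by
        rw [map_nsmul, ← coe_smul_tors, hfix]
      rw [he k hk, e'] at this
      exact (Point.some.inj this).1
    have hm := hres (x k) (hxA k hk)
    rw [hfx] at hm
    rw [← map_pow, ← map_sub, IsLocalRing.residue_eq_zero_iff]
    refine (ValuationSubring.coe_mem_nonunits_iff
      (a := (⟨x k, hxA k hk⟩ : A) ^ ℓ - ⟨x k, hxA k hk⟩)).1 ?_
    simpa using m_neg hm
  have hcard : (Polynomial.X ^ ℓ - Polynomial.X :
        Polynomial (IsLocalRing.ResidueField A)).roots.toFinset.card <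
            (Finset.Icc 1 (ℓ + 1)).card := by
    refine lt_of_le_of_lt ((Multiset.toFinset_card_le _).trans (Polynomial.card_roots' _)) ?_
    rw [FiniteField.X_pow_card_sub_X_natDegree_eq _ hℓ.one_lt, Nat.card_Icc]
    omega
  obtain ⟨i, hi, j, hj, hne, e⟩ := Finset.exists_ne_map_eq_of_card_lt_of_maps_to hcard hroot
  have hd : x i - x j ∈ A.nonunits := by
    simp only [r, dif_pos (hxA i hi), dif_pos (hxA j hj)] at e
    rw [← sub_eq_zero, ← map_sub, IsLocalRing.residue_eq_zero_iff] at e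
    exact (ValuationSubring.coe_mem_nonunits_iff (a := (⟨x i, hxA i hi⟩ - ⟨x j, hxA j hj⟩ : A))).2 e
  have hzero : ∀ n : ℕ, n • Q.1 = 0 → p ∣ n := fun n h => hord ▸ addOrderOf_dvd_of_nsmul_eq_zero h
  have hE0j : W.InZeroComponentAt A (.some (x j) (y j) (hxy j hj) : (barCurve W).Point) := by
    rw [← he j hj]; exact inZero_nsmul hE0 j
  rw [Finset.mem_Icc] at hi hj
  have hi' := Finset.mem_Icc.2 hi
  have hj' := Finset.mem_Icc.2 hj
  rcases eq_or_neg_of_x_congr hℓ hA hp hp2 hℓp (by rw [← he j hj']; exact htor j)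
      (by rw [← he i hi']; exact htor i) hE0j hd with h | h <;>
    rw [← he i hi', ← he j hj'] at h
  · rcases lt_or_gt_of_ne hne with hlt' | hlt'
    · have : (j - i) • Q.1 = 0 := by
        rw [sub_nsmul _ hlt'.le, h, add_neg_cancel]
      have := Nat.le_of_dvd (by omega) (hzero _ this)
      omega
    · have : (i - j) • Q.1 = 0 := by
        rw [sub_nsmul _ hlt'.le, h, add_neg_cancel]
      have := Nat.le_of_dvd (by omega) (hzero _ this)
      omega
  · have : (i + j) • Q.1 = 0 := by rw [add_nsmul, h, neg_add_cancel]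
    have := Nat.le_of_dvd (by omega) (hzero _ this)
    omega

section Multiplicative

variable [Fact p.Prime]

/-- At a multiplicative prime the `p`-torsion points in the zero component form a line. -/
theorem exists_e0_line (hℓ : ℓ.Prime) (hA : A.LiesOverPrime ℓ) (hΔ0 : W.Δ ≠ 0)
    (hΔ : (ℓ : ℤ) ∣ W.Δ) (hc₄ : ¬ (ℓ : ℤ) ∣ W.c₄) (hp2 : p ≠ 2) :
    ∃ L : Submodule (ZMod p) (Tors W p), Module.finrank (ZMod p) L = 1 ∧
      ∀ z : Tors W p, z ∈ L ↔ W.InZeroComponentAt A z.1 := by
  have h1 := (Tate.val_intCast_lt_one_iff hℓ hA W.Δ).2 hΔ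
  have h2 := (Tate.val_intCast_eq_one_iff hℓ hA W.c₄).2 hc₄
  exact ⟨Tate.e0Torsion W A p hΔ0 h1 h2, Tate.finrank_e0Torsion hΔ0 h1 h2 hp2, fun z =>
    Tate.mem_e0Torsion.trans (Tate.inZeroComponentAt_iff_inE0 W A _).symm⟩

omit [Fact p.Prime] in
/-- The decomposition group preserves the zero component. -/
theorem inZero_smul {σ : GQ} (hd : σ ∈ A.decompositionSubgroup ℚ) {z : Tors W p}
    (hz : W.InZeroComponentAt A z.1) : W.InZeroComponentAt A (σ • z : Tors W p).1 :=
  (Tate.inZeroComponentAt_iff_inE0 W A _).2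
    (Tate.inE0_smul_of_mem_decomposition hd ((Tate.inZeroComponentAt_iff_inE0 W A _).1 hz))

end Multiplicative

end Fermat.Agent.Mazur
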