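import Fermat.Agent.Gal.Basic
import Fermat.Agent.Mazur.Core
import Fermat.Agent.Mazur.Cusp
import Fermat.Agent.Mazur.Disc.Near
import Fermat.Agent.Mazur.GlueCore
import Fermat.Agent.Mazur.Moduli.Main
import Fermat.Agent.Mazur.RankZero.Final

/-!
# Assembly of the cusp disc argument

`NoCuspDiscLine p` for prime `p ≥ 11`, `p ≠ 13`, given the formal immersion at `∞`: all other
statements of `Interface` are discharged here.
-/

noncomputable section

namespace Fermat.Agent.Mazur

open WeierstrassCurve WeierstrassCurve.Affine WeierstrassCurve.Affine.Point ModularCurve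

/-- A prime other than `2, 3, 5, 7, 13` is at least `11` and not `13`. -/
theorem eleven_le_of_not_mem {p : ℕ} (hp : p.Prime) (h : p ∉ ({2, 3, 5, 7, 13} : Finset ℕ)) :
    11 ≤ p ∧ p ≠ 13 := by
  simp only [Finset.mem_insert, Finset.mem_singleton, not_or] at h
  refine ⟨?_, h.2.2.2.2⟩
  by_contra hlt
  interval_cases p <;> first | omega | (norm_num at hp)

/-- For prime `p ≥ 11`, `p ≠ 13`, the formal immersion at `∞` implies `NoCuspDiscLine p`. -/
theorem noCuspDiscLine_of_formalImmersion {p : ℕ} [NeZero p] (hp : p.Prime) (h11 : 11 ≤ p)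
    (h13 : p ≠ 13) (himm : FormalImmersion p) : NoCuspDiscLine p :=
  haveI : Fact p.Prime := ⟨hp⟩
  have hdvd : ∀ q : ℕ, q.Prime → q < 11 → ¬ q ∣ p := fun q hq hlt hd => by
    have := (Nat.prime_dvd_prime_iff_eq hq hp).mp hd
    omega
  noCuspDiscLine_of hp h11 (fun W => moduliPoint p W)
    (noRationalCuspDiscPoint p (Hecke.heckeOperatorsCommuteBar (N := p))
      (hdvd 2 Nat.prime_two (by norm_num))
      (hdvd 3 Nat.prime_three (by norm_num)) (exists_infty p) (deg_eq_deg p)
      (fun _ hℓ => Gal.exists_liesOverPrime hℓ) (rankZeroQuotient p hp h11 h13)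
      (heckePreservesKernel p) (reductionInjective p) (Disc.nearReduction p) himm)

end Fermat.Agent.Mazur
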