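import Fermat.Prelude.Def_EllipticCurve_ZeroComponentAt
import Fermat.Agent.Frey.FreyModel
import Fermat.Agent.Mazur.FreyIrreducible
import Fermat.Agent.Mazur.Local

/-!
# Frey curves have no cofixed line for large `p`

As `X₀(p)` has no rational point in the disc of the cusp at `2` and at `3`, a curve multiplicative
at `2` and `3` has no stable line of order `p` which is toric at both primes, or toric at neither
(`NoCuspDiscLine`, a hypothesis here, reduced in `GlueCore` and derived in `Assemble`).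
-/

noncomputable section

namespace Fermat.Agent.Mazur

open WeierstrassCurve WeierstrassCurve.Affine WeierstrassCurve.Affine.Point
open Fermat.Agent.Frey
open scoped WeierstrassCurve.Affine

local notation "Qbar" => AlgebraicClosure ℚ
local notation "GQ" => AlgebraicClosure ℚ ≃ₐ[ℚ] AlgebraicClosure ℚ

/-- No curve over `ℚ`, multiplicative at `2` and `3`, has a stable line of order `p` that is
toric at both places, or toric at neither. -/
def NoCuspDiscLine (p : ℕ) : Prop :=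
  ∀ W : WeierstrassCurve ℤ, W.Δ ≠ 0 → (2 : ℤ) ∣ W.Δ → ¬ (2 : ℤ) ∣ W.c₄ → (3 : ℤ) ∣ W.Δ →
    ¬ (3 : ℤ) ∣ W.c₄ → ∀ N : Submodule (ZMod p) (Tors W p), IsGaloisStable ℚ N → N ≠ ⊥ → N ≠ ⊤ →
      ((∀ A : ValuationSubring Qbar, A.LiesOverPrime 2 ∨ A.LiesOverPrime 3 →
          ∀ x ∈ N, W.InZeroComponentAt A x.1) ∨
        (∀ A : ValuationSubring Qbar, A.LiesOverPrime 2 ∨ A.LiesOverPrime 3 →
          ∀ x ∈ N, x ≠ 0 → ¬ W.InZeroComponentAt A x.1)) → False

section Cofixed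

variable {W : WeierstrassCurve ℤ} {p : ℕ} [Fact p.Prime] {N : Submodule (ZMod p) (Tors W p)}
  {A : ValuationSubring Qbar} {ℓ : ℕ}

/-- A cofixed line and `p > 2ℓ + 1`: there is bad reduction at `ℓ`. -/
theorem dvd_Δ_of_cofixed (hΔ0 : W.Δ ≠ 0) (hbot : N ≠ ⊥) (htop : N ≠ ⊤)
    (hcof : ∀ σ : GQ, ∀ x : Tors W p, σ • x - x ∈ N) (hℓ : ℓ.Prime) (hlt : 2 * ℓ + 1 < p) :
    (ℓ : ℤ) ∣ W.Δ := by
  by_contra hgood
  have := finite_tors (p := p) hΔ0
  have hp2 : p ≠ 2 := by have := hℓ.two_le; omega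
  obtain ⟨A, σ, hA, hσ⟩ := Gal.exists_liesOverPrime_isFrobeniusAt hℓ
  set f : Tors W p →ₗ[ZMod p] N := LinearMap.codRestrict N
    (galoisRepModuleEnd ℚ (W.map (Int.castRingHom ℚ)) p σ - LinearMap.id) (fun x => hcof σ x)
  have hker : LinearMap.ker f ≠ ⊥ := LinearMap.ker_ne_bot_of_finrank_lt (by
    rw [finrank_line hΔ0 hbot htop, finrank_tors hΔ0]; norm_num)
  obtain ⟨Q, hQ, hQ0⟩ := Submodule.exists_mem_ne_zero_of_ne_bot hker
  have hfix : σ • Q = Q := sub_eq_zero.1 (congrArg Subtype.val (LinearMap.mem_ker.1 hQ))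
  have hgood' : W.InZeroComponentAt A Q.1 :=
    EC.inZeroComponentAt_of_good (hq := hℓ) (hA := hA) (hgood := hgood) (P := Q.1)
  exact absurd (le_of_frobenius_fixed hℓ hA hp2 (by omega) hσ hQ0 hfix hgood') (by omega)

/-- A cofixed line is the toric line at a multiplicative prime `ℓ` with `2ℓ + 1 < p`. -/
theorem inZero_of_cofixed (hΔ0 : W.Δ ≠ 0) (hbot : N ≠ ⊥) (htop : N ≠ ⊤)
    (hcof : ∀ σ : GQ, ∀ x : Tors W p, σ • x - x ∈ N) (hℓ : ℓ.Prime) (hA : A.LiesOverPrime ℓ)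
    (hlt : 2 * ℓ + 1 < p) (hΔ : (ℓ : ℤ) ∣ W.Δ) (hc₄ : ¬ (ℓ : ℤ) ∣ W.c₄) :
    ∀ x ∈ N, W.InZeroComponentAt A x.1 := by
  have hp2 : p ≠ 2 := by have := hℓ.two_le; omega
  obtain ⟨L, hL1, hL⟩ := exists_e0_line (p := p) hℓ hA hΔ0 hΔ hc₄ hp2
  obtain ⟨σ, hσ⟩ := Gal.exists_isFrobeniusAt hℓ hA
  have hd := hσ.mem_decompositionSubgroup
  have hLbot : L ≠ ⊥ := fun e => by rw [e, finrank_bot] at hL1; exact zero_ne_one hL1
  have hLtop : L ≠ ⊤ := fun e => by
    rw [e, finrank_top, finrank_tors hΔ0] at hL1; norm_num at hL1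
  obtain ⟨Q, hQ, hQ0⟩ := Submodule.exists_mem_ne_zero_of_ne_bot hLbot
  by_cases hQN : Q ∈ N
  · intro x hx
    obtain ⟨c, rfl⟩ := exists_smul_eq_of_mem hΔ0 hbot htop hQN hQ0 hx
    exact (hL _).1 (L.smul_mem c hQ)
  exfalso
  obtain ⟨c, hc⟩ := exists_smul_eq_of_mem hΔ0 hLbot hLtop hQ hQ0
    (L.sub_mem ((hL _).2 (inZero_smul hd ((hL Q).1 hQ))) hQ)
  by_cases hc0 : c = 0
  · rw [hc0, zero_smul] at hc
    exact absurd (le_of_frobenius_fixed hℓ hA hp2 (by omega) hσ hQ0 (sub_eq_zero.1 hc.symm)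
      ((hL Q).1 hQ)) (by omega)
  · refine hQN ?_
    have := N.smul_mem c⁻¹ (hc ▸ hcof σ Q : c • Q ∈ N)
    rwa [smul_smul, inv_mul_cancel₀ hc0, one_smul] at this

end Cofixed

/-- A Frey curve with `p ≥ 17` has no stable cofixed line, given the statement about `X₀(p)`. -/
theorem frey_no_cofixed_large_of (P : FreyPackage) (hp : 17 ≤ P.p)
    (hcore : NoCuspDiscLine P.p) :
    ¬ HasGaloisStableCofixedLine (K := AlgebraicClosure ℚ) ℚ P.freyCurve P.p := by
  rw [freyCurve_eq_map]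
  have : Fact P.p.Prime := ⟨P.pp⟩
  set W := P.freyCurveInt
  rintro ⟨N, hst, hbot, htop, hcof⟩
  have hΔ0 : W.Δ ≠ 0 := freyCurveInt_Δ_ne_zero P
  have hss : W.IsSemistableModel := freyCurveInt_isSemistable P
  have d2 : (2 : ℤ) ∣ W.Δ := by
    exact_mod_cast dvd_Δ_of_cofixed hΔ0 hbot htop hcof Nat.prime_two (by omega)
  have d3 : (3 : ℤ) ∣ W.Δ := by
    exact_mod_cast dvd_Δ_of_cofixed hΔ0 hbot htop hcof Nat.prime_three (by omega)
  have c2 : ¬ (2 : ℤ) ∣ W.c₄ := by exact_mod_cast hss 2 Nat.prime_two (by exact_mod_cast d2)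
  have c3 : ¬ (3 : ℤ) ∣ W.c₄ := by exact_mod_cast hss 3 Nat.prime_three (by exact_mod_cast d3)
  refine hcore W hΔ0 d2 c2 d3 c3 N hst hbot htop (Or.inl ?_)
  rintro A (hA | hA)
  · exact inZero_of_cofixed hΔ0 hbot htop hcof Nat.prime_two hA (by omega)
      (by exact_mod_cast d2) (by exact_mod_cast c2)
  · exact inZero_of_cofixed hΔ0 hbot htop hcof Nat.prime_three hA (by omega)
      (by exact_mod_cast d3) (by exact_mod_cast c3)

/-- No rational point of order `p` lies outside the zero component at both `2` and `3`, given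
the statement about `X₀(p)`. -/
theorem not_inZeroComponentAt_of {p : ℕ} (hp : p.Prime) (hcore : NoCuspDiscLine p)
    (W : WeierstrassCurve ℤ) (hΔ : W.Δ ≠ 0)
    (Q : ((W.map (Int.castRingHom ℚ))⁄(AlgebraicClosure ℚ)).Point)
    (hQfix : ∀ σ : AlgebraicClosure ℚ ≃ₐ[ℚ] AlgebraicClosure ℚ, σ • Q = Q)
    (hQord : addOrderOf Q = p)
    (h2Δ : (2 : ℤ) ∣ W.Δ) (h2c₄ : ¬ (2 : ℤ) ∣ W.c₄)
    (h2 : ∀ A : ValuationSubring (AlgebraicClosure ℚ), A.LiesOverPrime 2 →
      ¬ W.InZeroComponentAt A Q)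
    (h3Δ : (3 : ℤ) ∣ W.Δ) (h3c₄ : ¬ (3 : ℤ) ∣ W.c₄)
    (h3 : ∀ A : ValuationSubring (AlgebraicClosure ℚ), A.LiesOverPrime 3 →
      ¬ W.InZeroComponentAt A Q) : False := by
  have : Fact p.Prime := ⟨hp⟩
  let q : Tors W p := ⟨Q, by
    rw [Submodule.mem_torsionBy_iff, natCast_zsmul, ← hQord]; exact addOrderOf_nsmul_eq_zero Q⟩
  have hq0 : q ≠ 0 := fun e => by
    have : Q = 0 := congrArg Subtype.val e
    rw [this, addOrderOf_zero] at hQord
    exact hp.ne_one hQord.symm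
  have h1 : Module.finrank (ZMod p) (Submodule.span (ZMod p) {q}) = 1 := finrank_span_singleton hq0
  refine hcore W hΔ h2Δ h2c₄ h3Δ h3c₄ (Submodule.span (ZMod p) {q}) ?_ ?_ ?_ (Or.inr ?_)
  · intro σ x hx
    obtain ⟨c, rfl⟩ := Submodule.mem_span_singleton.1 hx
    rw [smul_zmod_comm, show σ • q = q from Subtype.ext (hQfix σ)]
    exact Submodule.mem_span_singleton.2 ⟨c, rfl⟩
  · exact fun e => hq0 ((Submodule.span_singleton_eq_bot).1 e)
  · intro e
    rw [e, finrank_top, finrank_tors hΔ] at h1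
    norm_num at h1
  · intro A hA x hx hx0 hin
    obtain ⟨c, rfl⟩ := Submodule.mem_span_singleton.1 hx
    have hc : c ≠ 0 := fun e => hx0 (by rw [e, zero_smul])
    have hQ : W.InZeroComponentAt A Q := by
      have := inZero_nsmul hin (c⁻¹).val
      have e : (c⁻¹).val • (c • q).1 = Q := by
        show ((c⁻¹).val • (c • q) : Tors W p).1 = q.1
        rw [← Nat.cast_smul_eq_nsmul (ZMod p), ZMod.natCast_zmod_val, smul_smul, inv_mul_cancel₀ hc,
          one_smul]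
      rwa [e] at this
    exact hA.elim (fun h => h2 A h hQ) (fun h => h3 A h hQ)

end Fermat.Agent.Mazur
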